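/-
P-GENUS subtask GEN-4 (helper49): the place induced by an embedding of a function field into a
discretely valued field, and the uniqueness companion `place_ext_of_ord`.
-/
import Fermat.Agent.H23.BlueprintRH
import Fermat.Prelude.Def_AlgebraicCurve_Repartitions

set_option autoImplicit false

noncomputable section

namespace Fermat.Agent.H49

open AlgebraicCurve

section ValRing

variable {F : Type*} [Field F] (w : AddValuation F (WithTop ℤ))

/-- Integer-valued version of `w` (junk value `0` at `0`). -/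
def wz (f : F) : ℤ := (w f).untopD 0

theorem w_eq_coe_wz {f : F} (hf : f ≠ 0) : w f = ((wz w f : ℤ) : WithTop ℤ) := by
  have h : w f ≠ ⊤ := (AddValuation.ne_top_iff w).2 hf
  unfold wz
  cases hx : w f with
  | top => exact absurd hx h
  | coe n => simp

theorem wz_mul {f g : F} (hf : f ≠ 0) (hg : g ≠ 0) : wz w (f * g) = wz w f + wz w g := by
  have h1 := w_eq_coe_wz w (mul_ne_zero hf hg)
  rw [AddValuation.map_mul, w_eq_coe_wz w hf, w_eq_coe_wz w hg, ← WithTop.coe_add] at h1
  exact (WithTop.coe_injective h1).symm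

theorem wz_one : wz w (1 : F) = 0 := by
  simp [wz, AddValuation.map_one]

theorem wz_inv {f : F} (hf : f ≠ 0) : wz w f⁻¹ = - wz w f := by
  have h := wz_mul w hf (inv_ne_zero hf)
  rw [mul_inv_cancel₀ hf, wz_one] at h
  omega

theorem wz_pow {f : F} (hf : f ≠ 0) (n : ℕ) : wz w (f ^ n) = n * wz w f := by
  induction n with
  | zero => simp [wz_one]
  | succ k ih =>
    rw [pow_succ, wz_mul w (pow_ne_zero k hf) hf, ih]
    push_cast
    ring

theorem wz_zpow {f : F} (hf : f ≠ 0) (n : ℤ) : wz w (f ^ n) = n * wz w f := by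
  obtain ⟨k, rfl | rfl⟩ := n.eq_nat_or_neg
  · rw [zpow_natCast, wz_pow w hf]
  · rw [zpow_neg, zpow_natCast, wz_inv w (pow_ne_zero k hf), wz_pow w hf]
    ring

theorem w_nonneg_iff {f : F} (hf : f ≠ 0) : 0 ≤ w f ↔ 0 ≤ wz w f := by
  rw [w_eq_coe_wz w hf]
  exact_mod_cast Iff.rfl

/-- The valuation ring `{f | 0 ≤ w f}`. -/
def valRing : ValuationSubring F where
  carrier := {f | 0 ≤ w f}
  mul_mem' := fun {a b} ha hb => by
    show 0 ≤ w (a * b)
    rw [AddValuation.map_mul]
    exact add_nonneg ha hb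
  one_mem' := by
    show 0 ≤ w 1
    rw [AddValuation.map_one]
  add_mem' := fun {a b} ha hb => AddValuation.map_le_add w ha hb
  zero_mem' := by
    show 0 ≤ w 0
    rw [AddValuation.map_zero]
    exact le_top
  neg_mem' := fun {a} ha => by
    show 0 ≤ w (-a)
    rw [AddValuation.map_neg]
    exact ha
  mem_or_inv_mem' := fun a => by
    by_cases ha : a = 0
    · left
      show 0 ≤ w a
      rw [ha, AddValuation.map_zero]
      exact le_top
    · show 0 ≤ w a ∨ 0 ≤ w a⁻¹
      rw [w_nonneg_iff w ha, w_nonneg_iff w (inv_ne_zero ha), wz_inv w ha]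
      omega

theorem mem_valRing {f : F} : f ∈ valRing w ↔ 0 ≤ w f := Iff.rfl

theorem mem_valRing_of_ne_zero {f : F} (hf : f ≠ 0) : f ∈ valRing w ↔ 0 ≤ wz w f :=
  w_nonneg_iff w hf

theorem valRing_isPrincipalIdealRing : IsPrincipalIdealRing (valRing w) := by
  refine ⟨fun I => ?_⟩
  by_cases hI : I = ⊥
  · rw [hI]
    exact bot_isPrincipal
  classical
  obtain ⟨a, haI, ha0⟩ : ∃ a ∈ I, a ≠ 0 := Submodule.exists_mem_ne_zero_of_ne_bot hI
  have hex : ∃ n : ℕ, ∃ a ∈ I, a ≠ 0 ∧ wz w (a : F) = n := by
    have haF : (a : F) ≠ 0 := fun h => ha0 (Subtype.ext h)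
    have hnn : 0 ≤ wz w (a : F) := (mem_valRing_of_ne_zero w haF).1 a.2
    exact ⟨(wz w (a : F)).toNat, a, haI, ha0, (Int.toNat_of_nonneg hnn).symm⟩
  obtain ⟨a₀, ha₀I, ha₀0, ha₀⟩ := Nat.find_spec hex
  have hmin := fun k (hk : k < Nat.find hex) => Nat.find_min hex hk
  have ha₀F : (a₀ : F) ≠ 0 := fun h => ha₀0 (Subtype.ext h)
  refine ⟨⟨a₀, le_antisymm ?_ ?_⟩⟩
  · intro b hb
    by_cases hb0 : b = 0
    · rw [hb0]
      exact Submodule.zero_mem _
    have hbF : (b : F) ≠ 0 := fun h => hb0 (Subtype.ext h)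
    have hnnb : 0 ≤ wz w (b : F) := (mem_valRing_of_ne_zero w hbF).1 b.2
    have hle : wz w (a₀ : F) ≤ wz w (b : F) := by
      by_contra hlt
      rw [not_le] at hlt
      have hk : (wz w (b : F)).toNat < Nat.find hex := by
        have : ((wz w (b : F)).toNat : ℤ) < (Nat.find hex : ℤ) := by
          rw [Int.toNat_of_nonneg hnnb, ← ha₀]
          exact hlt
        exact_mod_cast this
      exact hmin _ hk ⟨b, hb, hb0, (Int.toNat_of_nonneg hnnb).symm⟩
    have hc : (b : F) * (a₀ : F)⁻¹ ∈ valRing w := by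
      rw [mem_valRing_of_ne_zero w (mul_ne_zero hbF (inv_ne_zero ha₀F)),
        wz_mul w hbF (inv_ne_zero ha₀F), wz_inv w ha₀F]
      omega
    rw [Submodule.mem_span_singleton]
    refine ⟨⟨_, hc⟩, Subtype.ext ?_⟩
    show (b : F) * (a₀ : F)⁻¹ * (a₀ : F) = (b : F)
    rw [mul_assoc, inv_mul_cancel₀ ha₀F, mul_one]
  · rw [Submodule.span_singleton_le_iff_mem]
    exact ha₀I

end ValRing

section Induced

variable {K F : Type*} [Field K] [Field F] [Algebra K F]

/-- The place attached to a `ℤ`-valued additive valuation of `F` which is trivial on the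
constants and nontrivial on `F`. -/
def placeOfAddValuation (w : AddValuation F (WithTop ℤ))
    (hK : ∀ c : K, c ≠ 0 → w (algebraMap K F c) = 0)
    (hy : ∃ y : F, y ≠ 0 ∧ w y ≠ 0) : Place K F where
  toValuationSubring := valRing w
  algebraMap_mem' := fun c => by
    by_cases hc : c = 0
    · rw [hc, map_zero]
      exact (valRing w).zero_mem
    · rw [mem_valRing, hK c hc]
  ne_top' := by
    obtain ⟨y, hy0, hy⟩ := hy
    intro htop
    have h1 : y ∈ valRing w := htop ▸ ValuationSubring.mem_top y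
    have h2 : y⁻¹ ∈ valRing w := htop ▸ ValuationSubring.mem_top y⁻¹
    rw [mem_valRing_of_ne_zero w hy0] at h1
    rw [mem_valRing_of_ne_zero w (inv_ne_zero hy0), wz_inv w hy0] at h2
    apply hy
    rw [w_eq_coe_wz w hy0]
    have : wz w y = 0 := by omega
    rw [this]
    rfl
  isPrincipalIdealRing' := valRing_isPrincipalIdealRing w

@[simp]
theorem placeOfAddValuation_toValuationSubring (w : AddValuation F (WithTop ℤ))
    (hK : ∀ c : K, c ≠ 0 → w (algebraMap K F c) = 0)
    (hy : ∃ y : F, y ≠ 0 ∧ w y ≠ 0) :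
    (placeOfAddValuation w hK hy).toValuationSubring = valRing w := rfl

/-- Key statement: an additive `ℤ`-valued valuation on `F`, trivial on constants and nontrivial,
is a positive multiple of the order function of a place. -/
theorem exists_place_of_addValuation (w : AddValuation F (WithTop ℤ))
    (hK : ∀ c : K, c ≠ 0 → w (algebraMap K F c) = 0)
    (hy : ∃ y : F, y ≠ 0 ∧ w y ≠ 0) :
    ∃ (v : Place K F) (m : ℕ), 0 < m ∧ v.toValuationSubring = valRing w ∧
      ∀ f : F, f ≠ 0 → w f = (((m : ℤ) * v.ord f : ℤ) : WithTop ℤ) := by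
  set v : Place K F := placeOfAddValuation w hK hy with hv
  obtain ⟨π, hπ⟩ := IsDiscreteValuationRing.exists_irreducible v.toValuationSubring
  have hπF : (π : F) ≠ 0 := by
    simpa [ne_eq, ZeroMemClass.coe_eq_zero] using hπ.ne_zero
  have hπnn : 0 ≤ wz w (π : F) := (mem_valRing_of_ne_zero w hπF).1 π.2
  -- units have valuation zero
  have hunit : ∀ u : v.toValuationSubringˣ, wz w ((u : v.toValuationSubring) : F) = 0 := by
    intro u
    have hu0 : ((u : v.toValuationSubring) : F) ≠ 0 := by
      simp [ne_eq, ZeroMemClass.coe_eq_zero]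
    have h1 : 0 ≤ wz w ((u : v.toValuationSubring) : F) :=
      (mem_valRing_of_ne_zero w hu0).1 (u : v.toValuationSubring).2
    have hinv : (((u⁻¹ : v.toValuationSubringˣ) : v.toValuationSubring) : F)
        = ((u : v.toValuationSubring) : F)⁻¹ := by
      have h := congrArg (fun x : v.toValuationSubring => (x : F)) u.mul_inv
      simp only [MulMemClass.coe_mul, OneMemClass.coe_one] at h
      exact (eq_inv_of_mul_eq_one_right h)
    have h2 : 0 ≤ wz w (((u : v.toValuationSubring) : F)⁻¹) := by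
      rw [← hinv]
      have hu0' : (((u⁻¹ : v.toValuationSubringˣ) : v.toValuationSubring) : F) ≠ 0 := by
        simp [ne_eq, ZeroMemClass.coe_eq_zero]
      exact (mem_valRing_of_ne_zero w hu0').1 ((u⁻¹ : v.toValuationSubringˣ) : v.toValuationSubring).2
    rw [wz_inv w hu0] at h2
    omega
  have hπpos : 0 < wz w (π : F) := by
    rcases hπnn.lt_or_eq with h | h
    · exact h
    · exfalso
      apply hπ.not_isUnit
      have hinv : (π : F)⁻¹ ∈ valRing w := by
        rw [mem_valRing_of_ne_zero w (inv_ne_zero hπF), wz_inv w hπF, ← h]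
        simp
      refine IsUnit.of_mul_eq_one (⟨_, hinv⟩ : v.toValuationSubring) (Subtype.ext ?_)
      show (π : F) * (π : F)⁻¹ = 1
      exact mul_inv_cancel₀ hπF
  refine ⟨v, (wz w (π : F)).toNat, ?_, rfl, ?_⟩
  · have : ((wz w (π : F)).toNat : ℤ) = wz w (π : F) := Int.toNat_of_nonneg hπnn
    omega
  · intro f hf
    obtain ⟨u, hu⟩ := v.exists_unit_mul_zpow hf hπ
    have hu0 : ((u : v.toValuationSubring) : F) ≠ 0 := by
      simp [ne_eq, ZeroMemClass.coe_eq_zero]
    rw [w_eq_coe_wz w hf, Int.toNat_of_nonneg hπnn]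
    congr 1
    conv_lhs => rw [hu]
    rw [wz_mul w hu0 (zpow_ne_zero _ hπF), hunit u, wz_zpow w hπF, zero_add, mul_comm]

end Induced

section Uniqueness

variable {K F : Type*} [Field K] [Field F] [Algebra K F]

/-- Membership in the valuation ring of a place, in terms of the order function. -/
theorem place_mem_iff_ord_nonneg (v : Place K F) {f : F} (hf : f ≠ 0) :
    f ∈ v.toValuationSubring ↔ 0 ≤ v.ord f := by
  constructor
  · intro h
    exact ((v.adicValuation_le_one_iff (f := f)).1
      (v.adicValuation_le_one_of_mem h)).resolve_left hf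
  · intro h
    obtain ⟨π, hπ⟩ := IsDiscreteValuationRing.exists_irreducible v.toValuationSubring
    obtain ⟨u, hu⟩ := v.exists_unit_mul_zpow hf hπ
    rw [hu]
    refine mul_mem (u : v.toValuationSubring).2 ?_
    obtain ⟨k, hk⟩ := Int.eq_ofNat_of_zero_le h
    rw [hk, zpow_natCast]
    exact pow_mem π.2 k

theorem place_mem_iff (v : Place K F) (f : F) :
    f ∈ v.toValuationSubring ↔ f = 0 ∨ 0 ≤ v.ord f := by
  by_cases hf : f = 0
  · simp [hf, v.toValuationSubring.zero_mem]
  · rw [place_mem_iff_ord_nonneg v hf, or_iff_right hf]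

/-- A place is determined by the sign of its order function: if every function regular at `v`
is regular at `w`, then `v = w` (discrete valuation rings are maximal proper subrings). -/
theorem place_ext_of_ord (v w : Place K F) (h : ∀ f : F, 0 ≤ v.ord f → 0 ≤ w.ord f) :
    v = w := by
  have hle : v.toValuationSubring ≤ w.toValuationSubring := by
    intro f hf
    by_cases hf0 : f = 0
    · rw [hf0]
      exact w.toValuationSubring.zero_mem
    · exact (place_mem_iff_ord_nonneg w hf0).2 (h f ((place_mem_iff_ord_nonneg v hf0).1 hf))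
  apply Place.ext
  refine le_antisymm hle ?_
  intro f hf
  by_contra hfv
  have hf0 : f ≠ 0 := fun h0 => hfv (h0 ▸ v.toValuationSubring.zero_mem)
  have hneg : v.ord f < 0 := by
    by_contra hnn
    rw [not_lt] at hnn
    exact hfv ((place_mem_iff_ord_nonneg v hf0).2 hnn)
  apply w.ne_top'
  refine eq_top_iff.2 fun g _ => ?_
  by_cases hg0 : g = 0
  · rw [hg0]
    exact w.toValuationSubring.zero_mem
  set n : ℕ := (v.ord g).natAbs with hn
  have hfn : f ^ n ≠ 0 := pow_ne_zero n hf0
  have h1 : g * (f ^ n)⁻¹ ∈ v.toValuationSubring := by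
    rw [place_mem_iff_ord_nonneg v (mul_ne_zero hg0 (inv_ne_zero hfn)),
      v.ord_mul hg0 (inv_ne_zero hfn), v.ord_inv, ← zpow_natCast, v.ord_zpow]
    have h2 : (n : ℤ) = |v.ord g| := by rw [hn]; exact Int.natCast_natAbs _
    have h3 : -|v.ord g| ≤ v.ord g := neg_abs_le _
    have h4 : (0 : ℤ) ≤ n := Int.natCast_nonneg n
    nlinarith
  have h5 : g = g * (f ^ n)⁻¹ * f ^ n := by
    rw [mul_assoc, inv_mul_cancel₀ hfn, mul_one]
  rw [h5]
  exact mul_mem (hle h1) (pow_mem hf n)

/-- Variant: equality of the order functions' signs is not needed; the order functions of two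
places with comparable regularity agree. -/
theorem place_ord_eq_of_ord (v w : Place K F) (h : ∀ f : F, 0 ≤ v.ord f → 0 ≤ w.ord f)
    (f : F) : v.ord f = w.ord f := by
  rw [place_ext_of_ord v w h]

end Uniqueness

/-- **GEN-4** (`RH-4` of the S24 blueprint). -/
theorem inducedPlace : Fermat.Agent.H23.InducedPlaceStatement := by
  intro K F _ _ _ M _ val σ hK hy
  obtain ⟨v, m, hm, -, h⟩ := exists_place_of_addValuation (K := K) (val.comap σ) hK hy
  exact ⟨v, m, hm, h⟩

end Fermat.Agent.H49
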