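/-
P-GENUS (S24), infrastructure for GEN-1 (helper49): places of a function field versus
height-one primes of a Dedekind domain with fraction field `F`.
-/
import Fermat.Agent.H49.InducedPlace

set_option autoImplicit false

noncomputable section

namespace Fermat.Agent.H49

open AlgebraicCurve IsDedekindDomain WithZero

section

variable {K F : Type*} [Field K] [Field F] [Algebra K F]

/-- Discrete valuation rings are maximal: comparable places are equal. -/
theorem place_ext_of_le (v w : Place K F)
    (h : v.toValuationSubring ≤ w.toValuationSubring) : v = w :=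
  place_ext_of_ord v w fun f hf => by
    by_cases hf0 : f = 0
    · simp [hf0]
    · exact (place_mem_iff_ord_nonneg w hf0).1 (h ((place_mem_iff_ord_nonneg v hf0).2 hf))

/-- Units of the valuation ring of a place have order `0` (field-element form). -/
theorem place_ord_eq_zero_of_mem_of_inv_mem (v : Place K F) {f : F}
    (h1 : f ∈ v.toValuationSubring) (h2 : f⁻¹ ∈ v.toValuationSubring) : v.ord f = 0 := by
  by_cases hf : f = 0
  · simp [hf]
  have a1 := (place_mem_iff_ord_nonneg v hf).1 h1
  have a2 := (place_mem_iff_ord_nonneg v (inv_ne_zero hf)).1 h2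
  rw [v.ord_inv] at a2
  omega

variable {R : Type*} [CommRing R] [IsDedekindDomain R] [Algebra R F] [IsFractionRing R F]
  [Algebra K R] [IsScalarTower K R F]

theorem mem_ofHeightOneSpectrum_iff (P : HeightOneSpectrum R) (x : F) :
    x ∈ (Place.ofHeightOneSpectrum (K := K) P).toValuationSubring ↔ P.valuation F x ≤ 1 :=
  Valuation.mem_valuationSubring_iff _ _

/-- The order function of the place of a height-one prime is the additive form of the adic
valuation. -/
theorem ofHeightOneSpectrum_ord (P : HeightOneSpectrum R) {f : F} (hf : f ≠ 0) :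
    (Place.ofHeightOneSpectrum (K := K) P).ord f = -WithZero.log (P.valuation F f) := by
  set v : Place K F := Place.ofHeightOneSpectrum (K := K) P with hv
  have hne : ∀ {x : F}, x ≠ 0 → P.valuation F x ≠ 0 := fun hx =>
    (Valuation.ne_zero_iff _).2 hx
  -- log of the valuation of units
  have hunitF : ∀ x : F, x ≠ 0 → x ∈ v.toValuationSubring → x⁻¹ ∈ v.toValuationSubring →
      WithZero.log (P.valuation F x) = 0 := by
    intro x hx h1 h2
    rw [mem_ofHeightOneSpectrum_iff] at h1 h2
    have e1 : WithZero.log (P.valuation F x) ≤ 0 := by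
      have := (WithZero.log_le_log (hne hx) one_ne_zero).2 h1
      simpa using this
    have e2 : WithZero.log (P.valuation F x⁻¹) ≤ 0 := by
      have := (WithZero.log_le_log (hne (inv_ne_zero hx)) one_ne_zero).2 h2
      simpa using this
    rw [map_inv₀, WithZero.log_inv] at e2
    omega
  obtain ⟨π, hπ⟩ := IsDiscreteValuationRing.exists_irreducible v.toValuationSubring
  have hπF : (π : F) ≠ 0 := by
    simpa [ne_eq, ZeroMemClass.coe_eq_zero] using hπ.ne_zero
  have hunit : ∀ u : v.toValuationSubringˣ,
      WithZero.log (P.valuation F ((u : v.toValuationSubring) : F)) = 0 := by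
    intro u
    have hu0 : ((u : v.toValuationSubring) : F) ≠ 0 := by
      simp [ne_eq, ZeroMemClass.coe_eq_zero]
    have hinv : (((u⁻¹ : v.toValuationSubringˣ) : v.toValuationSubring) : F)
        = ((u : v.toValuationSubring) : F)⁻¹ := by
      have h := congrArg (fun x : v.toValuationSubring => (x : F)) u.mul_inv
      simp only [MulMemClass.coe_mul, OneMemClass.coe_one] at h
      exact (eq_inv_of_mul_eq_one_right h)
    refine hunitF _ hu0 (u : v.toValuationSubring).2 ?_
    rw [← hinv]
    exact ((u⁻¹ : v.toValuationSubringˣ) : v.toValuationSubring).2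
  -- decomposition formula
  have hformula : ∀ g : F, g ≠ 0 →
      WithZero.log (P.valuation F g) = v.ord g * WithZero.log (P.valuation F (π : F)) := by
    intro g hg
    obtain ⟨u, hu⟩ := v.exists_unit_mul_zpow hg hπ
    have hu0 : ((u : v.toValuationSubring) : F) ≠ 0 := by
      simp [ne_eq, ZeroMemClass.coe_eq_zero]
    conv_lhs => rw [hu]
    rw [map_mul, WithZero.log_mul (hne hu0) (hne (zpow_ne_zero _ hπF)), hunit u, zero_add,
      map_zpow₀, WithZero.log_zpow, smul_eq_mul]
  -- the uniformizer has valuation exp (-1)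
  obtain ⟨ϖ, hϖ⟩ := P.valuation_exists_uniformizer F
  have hϖ0 : ϖ ≠ 0 := by
    intro h0
    rw [h0, map_zero] at hϖ
    exact WithZero.coe_ne_zero hϖ.symm
  have h1 := hformula ϖ hϖ0
  rw [hϖ, WithZero.log_exp] at h1
  have hπle : WithZero.log (P.valuation F (π : F)) ≤ 0 := by
    have := (WithZero.log_le_log (hne hπF) one_ne_zero).2
      ((mem_ofHeightOneSpectrum_iff (K := K) P _).1 π.2)
    simpa using this
  have hπlog : WithZero.log (P.valuation F (π : F)) = -1 := by
    have hdvd : WithZero.log (P.valuation F (π : F)) ∣ (-1 : ℤ) := ⟨v.ord ϖ, by rw [h1]; ring⟩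
    have habs : |WithZero.log (P.valuation F (π : F))| = 1 := by
      have := Int.isUnit_iff_abs_eq.1 (isUnit_of_dvd_unit hdvd (by decide : IsUnit (-1 : ℤ)))
      exact this
    rcases abs_eq (by norm_num : (0 : ℤ) ≤ 1) |>.1 habs with h | h
    · omega
    · exact h
  rw [hformula f hf, hπlog]
  ring

theorem ofHeightOneSpectrum_adicValuation (P : HeightOneSpectrum R) (f : F) :
    (Place.ofHeightOneSpectrum (K := K) P).adicValuation f = P.valuation F f := by
  by_cases hf : f = 0
  · simp [hf]
  rw [Place.adicValuation_eq_exp_neg_ord _ hf, ofHeightOneSpectrum_ord (K := K) P hf, neg_neg,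
    WithZero.exp_log ((Valuation.ne_zero_iff _).2 hf)]

/-- Order of an element of `R` at the place of `P` versus membership in `P`. -/
theorem ofHeightOneSpectrum_ord_pos_iff (P : HeightOneSpectrum R) {r : R} (hr : r ≠ 0) :
    0 < (Place.ofHeightOneSpectrum (K := K) P).ord (algebraMap R F r) ↔ r ∈ P.asIdeal := by
  have hrF : algebraMap R F r ≠ 0 := by
    rwa [ne_eq, FaithfulSMul.algebraMap_eq_zero_iff]
  rw [ofHeightOneSpectrum_ord (K := K) P hrF, ← P.valuation_lt_one_iff_mem (K := F)]
  rw [← WithZero.log_lt_log ((Valuation.ne_zero_iff _).2 hrF) one_ne_zero]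
  simp

theorem ofHeightOneSpectrum_injective :
    Function.Injective (Place.ofHeightOneSpectrum (K := K) (F := F) (R := R)) := by
  intro P Q h
  apply HeightOneSpectrum.ext
  ext r
  by_cases hr : r = 0
  · simp [hr]
  rw [← ofHeightOneSpectrum_ord_pos_iff (K := K) (F := F) P hr,
    ← ofHeightOneSpectrum_ord_pos_iff (K := K) (F := F) Q hr, h]

/-- Every place whose valuation ring contains `R` comes from a height-one prime of `R`. -/
theorem exists_heightOneSpectrum_of_le (v : Place K F)
    (h : ∀ r : R, algebraMap R F r ∈ v.toValuationSubring) :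
    ∃ P : HeightOneSpectrum R, Place.ofHeightOneSpectrum (K := K) P = v := by
  let φ : R →+* v.toValuationSubring :=
    (algebraMap R F).codRestrict v.toValuationSubring.toSubring h
  have hφ : ∀ r : R, ((φ r : v.toValuationSubring) : F) = algebraMap R F r := fun _ => rfl
  let I : Ideal R := (IsLocalRing.maximalIdeal v.toValuationSubring).comap φ
  have hIprime : I.IsPrime := Ideal.comap_isPrime φ _
  have hIne : I ≠ ⊥ := by
    intro hbot
    apply v.ne_top'
    refine eq_top_iff.2 fun x _ => ?_
    obtain ⟨a, b, hb, rfl⟩ := IsFractionRing.div_surjective (A := R) x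
    have hb0 : b ≠ 0 := nonZeroDivisors.ne_zero hb
    have hbI : b ∉ I := by
      rw [hbot]
      simpa using hb0
    have hunit : IsUnit (φ b) := by
      by_contra hnu
      exact hbI ((IsLocalRing.mem_maximalIdeal _).2 hnu)
    obtain ⟨u, hu⟩ := hunit
    have hinv : (algebraMap R F b)⁻¹ = (((u⁻¹ : v.toValuationSubringˣ) : v.toValuationSubring) : F) := by
      have h1 := congrArg (fun x : v.toValuationSubring => (x : F)) u.mul_inv
      simp only [MulMemClass.coe_mul, OneMemClass.coe_one] at h1
      rw [hu, hφ] at h1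
      exact (eq_inv_of_mul_eq_one_right h1).symm
    rw [div_eq_mul_inv, hinv]
    exact mul_mem (h a) (SetLike.coe_mem _)
  refine ⟨⟨I, hIprime, hIne⟩, ?_⟩
  apply place_ext_of_le
  intro x hx
  rw [mem_ofHeightOneSpectrum_iff] at hx
  obtain ⟨n, d, hnd⟩ :=
    HeightOneSpectrum.exists_primeCompl_mul_eq_of_integer (K := F) ⟨I, hIprime, hIne⟩ x hx
  have hdI : (d : R) ∉ I := d.2
  have hunit : IsUnit (φ d) := by
    by_contra hnu
    exact hdI ((IsLocalRing.mem_maximalIdeal _).2 hnu)
  obtain ⟨u, hu⟩ := hunit
  have hd0 : algebraMap R F d ≠ 0 := by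
    intro h0
    have : ((u : v.toValuationSubring) : F) = 0 := by rw [hu, hφ, h0]
    simp [ZeroMemClass.coe_eq_zero] at this
  have hinv : (algebraMap R F d)⁻¹ = (((u⁻¹ : v.toValuationSubringˣ) : v.toValuationSubring) : F) := by
    have h1 := congrArg (fun x : v.toValuationSubring => (x : F)) u.mul_inv
    simp only [MulMemClass.coe_mul, OneMemClass.coe_one] at h1
    rw [hu, hφ] at h1
    exact (eq_inv_of_mul_eq_one_right h1).symm
  have hx' : x = algebraMap R F n * (algebraMap R F d)⁻¹ := by
    rw [← hnd, mul_assoc, mul_inv_cancel₀ hd0, mul_one]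
  rw [hx', hinv]
  exact mul_mem (h n) (SetLike.coe_mem _)

theorem algebraMap_mem_ofHeightOneSpectrum (P : HeightOneSpectrum R) (r : R) :
    algebraMap R F r ∈ (Place.ofHeightOneSpectrum (K := K) P).toValuationSubring := by
  rw [mem_ofHeightOneSpectrum_iff]
  exact P.valuation_le_one r

end

end Fermat.Agent.H49
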