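/-
P-GENUS (S24), GEN-5 Lemma L (helper49): at most `ord_v y` of the embeddings of a local datum
induce a given place `v`.
-/
import Fermat.Agent.H49.InducedPlace

set_option autoImplicit false

noncomputable section

namespace Fermat.Agent.H49

open AlgebraicCurve

section OneUnits

variable {M : Type*} [Field M] (val : AddValuation M (WithTop ℤ))

theorem val_eq_zero_of_oneUnit {w : M} (h : 0 < val (w - 1)) : val w = 0 := by
  have h1 : val (1 : M) < val (w - 1) := by rwa [AddValuation.map_one]
  have h2 := AddValuation.map_add_eq_of_lt_left val h1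
  rw [AddValuation.map_one] at h2
  have h3 : (1 : M) + (w - 1) = w := by ring
  rwa [h3] at h2

theorem val_pos_mul_sub_one {w w' : M} (h : 0 < val (w - 1)) (h' : 0 < val (w' - 1)) :
    0 < val (w * w' - 1) := by
  have h3 : w * w' - 1 = (w - 1) * w' + (w' - 1) := by ring
  rw [h3]
  refine AddValuation.map_lt_add val ?_ h'
  rw [AddValuation.map_mul, val_eq_zero_of_oneUnit val h', add_zero]
  exact h

theorem val_pos_pow_sub_one {w : M} (h : 0 < val (w - 1)) (k : ℕ) : 0 < val (w ^ k - 1) := by
  induction k with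
  | zero => simp [AddValuation.map_zero]
  | succ k ih =>
    rw [pow_succ]
    exact val_pos_mul_sub_one val ih h

theorem val_geom_sum (hchar : ∀ k : ℕ, k ≠ 0 → val (k : M) = 0) {w : M}
    (h : 0 < val (w - 1)) (e : ℕ) (he : e ≠ 0) :
    val (∑ k ∈ Finset.range e, w ^ k) = 0 := by
  have h1 : ∑ k ∈ Finset.range e, w ^ k = (e : M) + ∑ k ∈ Finset.range e, (w ^ k - 1) := by
    rw [Finset.sum_sub_distrib]
    simp
  have h2 : (0 : WithTop ℤ) < val (∑ k ∈ Finset.range e, (w ^ k - 1)) :=
    AddValuation.map_lt_sum' val (by exact WithTop.coe_lt_top 0)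
      (fun k _ => val_pos_pow_sub_one val h k)
  rw [h1]
  have h3 : val (e : M) < val (∑ k ∈ Finset.range e, (w ^ k - 1)) := by
    rwa [hchar e he]
  rw [AddValuation.map_add_eq_of_lt_left val h3, hchar e he]

theorem val_pow_sub_one (hchar : ∀ k : ℕ, k ≠ 0 → val (k : M) = 0) {w : M}
    (h : 0 < val (w - 1)) (e : ℕ) (he : e ≠ 0) :
    val (w ^ e - 1) = val (w - 1) := by
  rw [← mul_geom_sum w e, AddValuation.map_mul, val_geom_sum val hchar h e he, add_zero]

end OneUnits

section Core

variable {K F M : Type*} [Field K] [Field F] [Algebra K F] [Field M]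

/-- Every element of the valuation ring is congruent to a constant (field-element form). -/
def ResidueConst (v : Place K F) : Prop :=
  ∀ x : F, x ∈ v.toValuationSubring →
    ∃ c : K, x = algebraMap K F c ∨ 0 < v.ord (x - algebraMap K F c)

theorem residueConst_of_deg_eq_one (v : Place K F) (h : v.deg = 1) : ResidueConst v := by
  intro x hx
  have h1 : Module.finrank K v.ResidueField = 1 := h
  obtain ⟨c, hc⟩ := (finrank_eq_one_iff_of_nonzero' (1 : v.ResidueField) one_ne_zero).1 h1
    (IsLocalRing.residue v.toValuationSubring ⟨x, hx⟩)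
  refine ⟨c, ?_⟩
  by_cases hxc : x = algebraMap K F c
  · exact Or.inl hxc
  right
  have hne : x - algebraMap K F c ≠ 0 := sub_ne_zero.2 hxc
  have hmem : x - algebraMap K F c ∈ v.toValuationSubring :=
    sub_mem hx (v.algebraMap_mem' c)
  have hnn := (place_mem_iff_ord_nonneg v hne).1 hmem
  rcases hnn.lt_or_eq with h0 | h0
  · exact h0
  exfalso
  -- `x - c` is a unit, but its residue is zero
  have hinv : (x - algebraMap K F c)⁻¹ ∈ v.toValuationSubring := by
    rw [place_mem_iff_ord_nonneg v (inv_ne_zero hne), v.ord_inv, ← h0]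
    simp
  have hres : IsLocalRing.residue v.toValuationSubring
      (⟨x, hx⟩ - algebraMap K v.toValuationSubring c) = 0 := by
    rw [map_sub, ← hc, Algebra.smul_def, mul_one]
    exact sub_eq_zero.2 rfl
  rw [IsLocalRing.residue_eq_zero_iff, IsLocalRing.mem_maximalIdeal] at hres
  apply hres
  refine IsUnit.of_mul_eq_one (⟨_, hinv⟩ : v.toValuationSubring) (Subtype.ext ?_)
  show (x - algebraMap K F c) * (x - algebraMap K F c)⁻¹ = 1
  exact mul_inv_cancel₀ hne

/-- **Core uniqueness lemma**: two embeddings inducing the same place with the same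
multiplier, agreeing on constants and on `y`, and close at a uniformizer, are equal. -/
theorem ringHom_eq_of_close (val : AddValuation M (WithTop ℤ)) (v : Place K F)
    (hres : ResidueConst v) (σ σ' : F →+* M) (m : ℤ) (hm : 0 < m)
    (hσ : ∀ f : F, f ≠ 0 → val (σ f) = ((m * v.ord f : ℤ) : WithTop ℤ))
    (hσ' : ∀ f : F, f ≠ 0 → val (σ' f) = ((m * v.ord f : ℤ) : WithTop ℤ))
    (hconst : ∀ c : K, σ (algebraMap K F c) = σ' (algebraMap K F c))
    (hchar : ∀ k : ℕ, k ≠ 0 → val (k : M) = 0)
    (y : F) (hy : 0 < v.ord y) (hσy : σ y = σ' y)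
    (π : F) (hπ : v.ord π = 1) (hclose : (m : WithTop ℤ) < val (σ' π - σ π)) :
    σ = σ' := by
  have hπ0 : π ≠ 0 := by
    intro h0
    rw [h0, v.ord_zero] at hπ
    exact zero_ne_one hπ
  have hy0 : y ≠ 0 := by
    intro h0
    rw [h0, v.ord_zero] at hy
    exact lt_irrefl _ hy
  -- nonnegativity on the valuation ring
  have hnnσ : ∀ (τ : F →+* M), (∀ f : F, f ≠ 0 → val (τ f) = ((m * v.ord f : ℤ) : WithTop ℤ)) →
      ∀ f : F, f ∈ v.toValuationSubring → (0 : WithTop ℤ) ≤ val (τ f) := by
    intro τ hτ f hf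
    by_cases hf0 : f = 0
    · rw [hf0, map_zero, AddValuation.map_zero]
      exact le_top
    · rw [hτ f hf0]
      have := (place_mem_iff_ord_nonneg v hf0).1 hf
      exact_mod_cast mul_nonneg hm.le this
  -- the difference
  set δ : F → M := fun f => σ' f - σ f with hδ
  have hδmul : ∀ f g : F, δ (f * g) = σ' f * δ g + δ f * σ g := by
    intro f g
    simp only [hδ, map_mul]
    ring
  have hδadd : ∀ f g : F, δ (f + g) = δ f + δ g := by
    intro f g
    simp only [hδ, map_add]
    ring
  have hδconst : ∀ c : K, δ (algebraMap K F c) = 0 := by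
    intro c
    simp only [hδ, hconst c, sub_self]
  -- Claim 1
  have claim1 : ∀ a : ℤ, (a : WithTop ℤ) ≤ val (δ π) → ∀ n : ℕ, ∀ f : F,
      f ∈ v.toValuationSubring → ((min a (n : ℤ) : ℤ) : WithTop ℤ) ≤ val (δ f) := by
    intro a ha n
    induction n with
    | zero =>
      intro f hf
      have h0 : (0 : WithTop ℤ) ≤ val (δ f) :=
        AddValuation.map_le_sub val (hnnσ σ' hσ' f hf) (hnnσ σ hσ f hf)
      refine le_trans ?_ h0
      exact_mod_cast min_le_right a 0
    | succ n ih =>
      intro f hf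
      obtain ⟨c, hc | hc⟩ := hres f hf
      · rw [hc, hδconst, AddValuation.map_zero]
        exact le_top
      · set g := f - algebraMap K F c with hg
        have hg0 : g ≠ 0 := by
          intro h0
          rw [h0, v.ord_zero] at hc
          exact lt_irrefl _ hc
        set f₁ := g * π⁻¹ with hf₁
        have hf₁0 : f₁ ≠ 0 := mul_ne_zero hg0 (inv_ne_zero hπ0)
        have hf₁mem : f₁ ∈ v.toValuationSubring := by
          rw [place_mem_iff_ord_nonneg v hf₁0, hf₁, v.ord_mul hg0 (inv_ne_zero hπ0), v.ord_inv, hπ]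
          omega
        have hfeq : f = algebraMap K F c + π * f₁ := by
          rw [hf₁, hg]
          field_simp
          ring
        have hδf : δ f = σ' π * δ f₁ + δ π * σ f₁ := by
          rw [hfeq, hδadd, hδconst, zero_add, hδmul]
        rw [hδf]
        refine AddValuation.map_le_add val ?_ ?_
        · rw [AddValuation.map_mul, hσ' π hπ0, hπ, mul_one]
          have h1 := ih f₁ hf₁mem
          have h2 : ((min a ((n + 1 : ℕ) : ℤ) : ℤ) : WithTop ℤ) ≤ ((m + min a (n : ℤ) : ℤ) : WithTop ℤ) := by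
            have : min a ((n + 1 : ℕ) : ℤ) ≤ m + min a (n : ℤ) := by
              push_cast
              omega
            exact_mod_cast this
          refine le_trans h2 ?_
          rw [WithTop.coe_add]
          gcongr
        · rw [AddValuation.map_mul]
          have h1 : ((min a ((n + 1 : ℕ) : ℤ) : ℤ) : WithTop ℤ) ≤ (a : WithTop ℤ) := by
            exact_mod_cast min_le_left _ _
          have h2 := hnnσ σ hσ f₁ hf₁mem
          calc ((min a ((n + 1 : ℕ) : ℤ) : ℤ) : WithTop ℤ) ≤ (a : WithTop ℤ) := h1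
            _ = (a : WithTop ℤ) + 0 := (add_zero _).symm
            _ ≤ val (δ π) + val (σ f₁) := add_le_add ha h2
  have claim1' : ∀ a : ℤ, (a : WithTop ℤ) ≤ val (δ π) → ∀ f : F,
      f ∈ v.toValuationSubring → (a : WithTop ℤ) ≤ val (δ f) := by
    intro a ha f hf
    have h := claim1 a ha a.toNat f hf
    have h2 : min a (a.toNat : ℤ) = a := by
      rcases le_or_gt 0 a with h0 | h0
      · rw [Int.toNat_of_nonneg h0, min_self]
      · rw [Int.toNat_of_nonpos h0.le]
        simp only [Nat.cast_zero]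
        exact min_eq_left h0.le
    rwa [h2] at h
  -- Claim 2: δ π = 0
  have claim2 : δ π = 0 := by
    by_contra hne
    have hfin : val (δ π) = ((wz val (δ π) : ℤ) : WithTop ℤ) := w_eq_coe_wz val hne
    set a : ℤ := wz val (δ π) with ha
    have hma : m < a := by
      have : (m : WithTop ℤ) < (a : WithTop ℤ) := by rw [← hfin]; exact hclose
      exact_mod_cast this
    obtain ⟨e, he⟩ := Int.eq_ofNat_of_zero_le hy.le
    have he0 : e ≠ 0 := by
      intro h0
      rw [h0] at he
      simp only [Nat.cast_zero] at he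
      omega
    set u : F := y * (π ^ e)⁻¹ with hu
    have hπe : π ^ e ≠ 0 := pow_ne_zero e hπ0
    have hu0 : u ≠ 0 := mul_ne_zero hy0 (inv_ne_zero hπe)
    have hordu : v.ord u = 0 := by
      rw [hu, v.ord_mul hy0 (inv_ne_zero hπe), v.ord_inv, ← zpow_natCast, v.ord_zpow, hπ, he]
      ring
    have humem : u ∈ v.toValuationSubring := by
      rw [place_mem_iff_ord_nonneg v hu0, hordu]
    have hyeq : y = u * π ^ e := by
      rw [hu, mul_assoc, inv_mul_cancel₀ hπe, mul_one]
    have hσu : val (σ u) = 0 := by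
      rw [hσ u hu0, hordu, mul_zero]
      rfl
    have hσ'u : val (σ' u) = 0 := by
      rw [hσ' u hu0, hordu, mul_zero]
      rfl
    have hσπ : val (σ π) = (m : WithTop ℤ) := by
      rw [hσ π hπ0, hπ, mul_one]
    have hσπ0 : σ π ≠ 0 := fun h0 => hπ0 ((map_eq_zero σ).1 h0)
    have hσ'u0 : σ' u ≠ 0 := fun h0 => hu0 ((map_eq_zero σ').1 h0)
    set w : M := σ' π / σ π with hw
    have hw1 : w - 1 = δ π / σ π := by
      rw [hw, hδ]
      field_simp
    have hvalw1 : val (w - 1) = ((a - m : ℤ) : WithTop ℤ) := by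
      rw [hw1, AddValuation.map_div, hfin, hσπ]
      rfl
    have hpos : (0 : WithTop ℤ) < val (w - 1) := by
      rw [hvalw1]
      have : (0 : ℤ) < a - m := by omega
      exact_mod_cast this
    have h1 := val_pow_sub_one val hchar hpos e he0
    -- the other computation of `w ^ e - 1`
    have hrel : σ' u * σ' π ^ e = σ u * σ π ^ e := by
      have e1 : σ' y = σ' u * σ' π ^ e := by rw [← map_pow, ← map_mul, ← hyeq]
      have e2 : σ y = σ u * σ π ^ e := by rw [← map_pow, ← map_mul, ← hyeq]
      rw [← e1, ← e2, hσy]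
    have hwe : w ^ e - 1 = - δ u / σ' u := by
      rw [hw, div_pow]
      have hσπe : σ π ^ e ≠ 0 := pow_ne_zero e hσπ0
      field_simp
      simp only [hδ]
      linear_combination hrel
    have h2 : (a : WithTop ℤ) ≤ val (w ^ e - 1) := by
      rw [hwe, AddValuation.map_div, AddValuation.map_neg, hσ'u, sub_zero]
      exact claim1' a (by rw [hfin]) u humem
    rw [h1, hvalw1] at h2
    have : a ≤ a - m := by exact_mod_cast h2
    omega
  -- Claim 3
  have claim3 : ∀ f : F, f ∈ v.toValuationSubring → σ f = σ' f := by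
    intro f hf
    have h : ∀ a : ℤ, (a : WithTop ℤ) ≤ val (δ f) := fun a =>
      claim1' a (by rw [claim2, AddValuation.map_zero]; exact le_top) f hf
    have hz : δ f = 0 := by
      by_contra hne
      have hfin := w_eq_coe_wz val hne
      have := h (wz val (δ f) + 1)
      rw [hfin] at this
      have h' : wz val (δ f) + 1 ≤ wz val (δ f) := by exact_mod_cast this
      omega
    have : σ' f - σ f = 0 := hz
    exact (sub_eq_zero.1 this).symm
  ext f
  rcases v.toValuationSubring.mem_or_inv_mem f with hf | hf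
  · exact claim3 f hf
  · have := claim3 f⁻¹ hf
    rw [map_inv₀, map_inv₀] at this
    exact inv_injective this

end Core

section Fibre

variable {M : Type*} [Field M]

theorem mem_maximalIdeal_valRing_iff (w : AddValuation M (WithTop ℤ)) (x : valRing w) :
    x ∈ IsLocalRing.maximalIdeal (valRing w) ↔ 0 < w (x : M) := by
  rw [IsLocalRing.mem_maximalIdeal, mem_nonunits_iff]
  have hx : (0 : WithTop ℤ) ≤ w (x : M) := x.2
  constructor
  · intro hnu
    rcases hx.lt_or_eq with h | h
    · exact h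
    exfalso
    apply hnu
    have hx0 : (x : M) ≠ 0 := by
      intro h0
      rw [h0, AddValuation.map_zero] at h
      exact WithTop.top_ne_zero h.symm
    have hinv : (x : M)⁻¹ ∈ valRing w := by
      rw [mem_valRing, AddValuation.map_inv, ← h]
      simp
    refine IsUnit.of_mul_eq_one (⟨_, hinv⟩ : valRing w) (Subtype.ext ?_)
    show (x : M) * (x : M)⁻¹ = 1
    exact mul_inv_cancel₀ hx0
  · intro hpos hu
    obtain ⟨u, hu⟩ := hu
    have h1 := congrArg (fun t : valRing w => w (t : M)) u.mul_inv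
    simp only [MulMemClass.coe_mul, OneMemClass.coe_one, AddValuation.map_mul,
      AddValuation.map_one] at h1
    have h2 : (0 : WithTop ℤ) ≤ w (((u⁻¹ : (valRing w)ˣ) : valRing w) : M) :=
      ((u⁻¹ : (valRing w)ˣ) : valRing w).2
    rw [hu] at h1
    have h3 : (0 : WithTop ℤ) < w (x : M) + w (((u⁻¹ : (valRing w)ˣ) : valRing w) : M) :=
      lt_of_lt_of_le hpos (le_add_of_nonneg_right h2)
    rw [h1] at h3
    exact lt_irrefl _ h3

variable {K F : Type*} [Field K] [Field F] [Algebra K F]

/-- **Fibre bound, common multiplier form.** -/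
theorem card_le_ord_of_common_multiplier (val : AddValuation M (WithTop ℤ)) (v : Place K F)
    (hres : ResidueConst v) [CharZero K] {I : Type*} (σ : I → (F →+* M))
    (hσinj : Function.Injective σ)
    (hvalc : ∀ (i : I) (c : K), c ≠ 0 → val (σ i (algebraMap K F c)) = 0)
    (hconst : ∀ (i i' : I) (c : K), σ i (algebraMap K F c) = σ i' (algebraMap K F c))
    (y : F) (hσy : ∀ i i' : I, σ i y = σ i' y) (hy : 0 < v.ord y)
    (m : ℤ) (hm : 0 < m) (J : Finset I)
    (hJ : ∀ j ∈ J, ∀ f : F, f ≠ 0 → val (σ j f) = ((m * v.ord f : ℤ) : WithTop ℤ)) :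
    (J.card : ℤ) ≤ v.ord y := by
  classical
  rcases J.eq_empty_or_nonempty with hJe | ⟨i₀, hi₀⟩
  · rw [hJe, Finset.card_empty]
    exact_mod_cast hy.le
  have hchar : ∀ k : ℕ, k ≠ 0 → val (k : M) = 0 := by
    intro k hk
    have h1 : (k : M) = σ i₀ (algebraMap K F (k : K)) := by
      rw [map_natCast, map_natCast]
    rw [h1]
    exact hvalc i₀ _ (Nat.cast_ne_zero.2 hk)
  obtain ⟨ϖ, hϖ⟩ := IsDiscreteValuationRing.exists_irreducible v.toValuationSubring
  set π : F := (ϖ : F) with hπdef
  have hπ : v.ord π = 1 := v.ord_coe_irreducible hϖ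
  have hπ0 : π ≠ 0 := by
    intro h0
    rw [h0, v.ord_zero] at hπ
    exact zero_ne_one hπ
  have hy0 : y ≠ 0 := by
    intro h0
    rw [h0, v.ord_zero] at hy
    exact lt_irrefl _ hy
  obtain ⟨e, he⟩ := Int.eq_ofNat_of_zero_le hy.le
  have he0 : e ≠ 0 := by
    intro h0
    rw [h0] at he
    simp only [Nat.cast_zero] at he
    omega
  set u : F := y * (π ^ e)⁻¹ with hu
  have hπe : π ^ e ≠ 0 := pow_ne_zero e hπ0
  have hu0 : u ≠ 0 := mul_ne_zero hy0 (inv_ne_zero hπe)
  have hordu : v.ord u = 0 := by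
    rw [hu, v.ord_mul hy0 (inv_ne_zero hπe), v.ord_inv, ← zpow_natCast, v.ord_zpow, hπ, he]
    ring
  have humem : u ∈ v.toValuationSubring := by
    rw [place_mem_iff_ord_nonneg v hu0, hordu]
  have hyeq : y = u * π ^ e := by
    rw [hu, mul_assoc, inv_mul_cancel₀ hπe, mul_one]
  have hσπ : ∀ j ∈ J, val (σ j π) = (m : WithTop ℤ) := by
    intro j hj
    rw [hJ j hj π hπ0, hπ, mul_one]
  have hσπ0 : ∀ j, σ j π ≠ 0 := fun j h0 => hπ0 ((map_eq_zero (σ j)).1 h0)
  have hσu0 : ∀ j, σ j u ≠ 0 := fun j h0 => hu0 ((map_eq_zero (σ j)).1 h0)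
  have hσu : ∀ j ∈ J, val (σ j u) = 0 := by
    intro j hj
    rw [hJ j hj u hu0, hordu, mul_zero]
    rfl
  -- the difference of two embeddings at the unit `u` has positive valuation
  have hdiffu : ∀ j ∈ J, ∀ j' ∈ J, (0 : WithTop ℤ) < val (σ j u - σ j' u) := by
    intro j hj j' hj'
    obtain ⟨c, hc | hc⟩ := hres u humem
    · rw [hc, hconst j j' c, sub_self, AddValuation.map_zero]
      exact WithTop.coe_lt_top 0
    · have hu'0 : u - algebraMap K F c ≠ 0 := by
        intro h0
        rw [h0, v.ord_zero] at hc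
        exact lt_irrefl _ hc
      have h1 : σ j u - σ j' u
          = σ j (u - algebraMap K F c) - σ j' (u - algebraMap K F c) := by
        rw [map_sub, map_sub, hconst j j' c]
        ring
      rw [h1]
      have hpos : ∀ i ∈ J, (0 : WithTop ℤ) < val (σ i (u - algebraMap K F c)) := by
        intro i hi
        rw [hJ i hi _ hu'0]
        have : (0 : ℤ) < m * v.ord (u - algebraMap K F c) := mul_pos hm hc
        exact_mod_cast this
      have h2 := AddValuation.map_sub val (σ j (u - algebraMap K F c))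
        (σ j' (u - algebraMap K F c))
      exact lt_of_lt_of_le (lt_min (hpos j hj) (hpos j' hj')) h2
  -- the quotients `z j`
  set z : I → M := fun j => σ j π / σ i₀ π with hz
  have hvalz : ∀ j ∈ J, val (z j) = 0 := by
    intro j hj
    simp only [hz]
    rw [AddValuation.map_div, hσπ j hj, hσπ i₀ hi₀]
    have : ((m : ℤ) : WithTop ℤ) - ((m : ℤ) : WithTop ℤ) = ((m - m : ℤ) : WithTop ℤ) := rfl
    rw [this, sub_self]
    rfl
  have hrel : ∀ j, σ j u * σ j π ^ e = σ i₀ u * σ i₀ π ^ e := by
    intro j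
    have e1 : σ j y = σ j u * σ j π ^ e := by rw [← map_pow, ← map_mul, ← hyeq]
    have e2 : σ i₀ y = σ i₀ u * σ i₀ π ^ e := by rw [← map_pow, ← map_mul, ← hyeq]
    rw [← e1, ← e2, hσy j i₀]
  have hzpow : ∀ j ∈ J, (0 : WithTop ℤ) < val (z j ^ e - 1) := by
    intro j hj
    have h1 : z j ^ e - 1 = (σ i₀ u - σ j u) / σ j u := by
      simp only [hz]
      rw [div_pow]
      have hσπe : σ i₀ π ^ e ≠ 0 := pow_ne_zero e (hσπ0 i₀)
      have := hσu0 j
      field_simp
      linear_combination hrel j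
    rw [h1, AddValuation.map_div, hσu j hj, sub_zero]
    exact hdiffu i₀ hi₀ j hj
  -- residues
  have hzmem : ∀ j ∈ J, z j ∈ valRing val := by
    intro j hj
    rw [mem_valRing, hvalz j hj]
  let ζ : I → IsLocalRing.ResidueField (valRing val) := fun j =>
    if h : z j ∈ valRing val then IsLocalRing.residue (valRing val) ⟨z j, h⟩ else 0
  have hζ : ∀ j (hj : j ∈ J), ζ j = IsLocalRing.residue (valRing val) ⟨z j, hzmem j hj⟩ := by
    intro j hj
    simp only [ζ, dif_pos (hzmem j hj)]
  have hζroot : ∀ j ∈ J, ζ j ∈ Polynomial.nthRootsFinset e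
      (1 : IsLocalRing.ResidueField (valRing val)) := by
    intro j hj
    rw [Polynomial.mem_nthRootsFinset (Nat.pos_of_ne_zero he0), hζ j hj, ← map_pow,
      ← sub_eq_zero, ← map_one (IsLocalRing.residue (valRing val)), ← map_sub,
      IsLocalRing.residue_eq_zero_iff, mem_maximalIdeal_valRing_iff]
    exact hzpow j hj
  have hinj : Set.InjOn ζ (J : Set I) := by
    intro j hj j' hj'
    rw [Finset.mem_coe] at hj hj'
    intro hjj'
    rw [hζ j hj, hζ j' hj', ← sub_eq_zero, ← map_sub, IsLocalRing.residue_eq_zero_iff,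
      mem_maximalIdeal_valRing_iff] at hjj'
    have h1 : (0 : WithTop ℤ) < val (z j - z j') := hjj'
    have h2 : σ j π - σ j' π = (z j - z j') * σ i₀ π := by
      simp only [hz]
      have := hσπ0 i₀
      field_simp
    have h3 : (m : WithTop ℤ) < val (σ j π - σ j' π) := by
      rw [h2, AddValuation.map_mul, hσπ i₀ hi₀]
      have hmne : (m : WithTop ℤ) ≠ ⊤ := WithTop.coe_ne_top
      calc (m : WithTop ℤ) = 0 + (m : WithTop ℤ) := (zero_add _).symm
        _ < val (z j - z j') + (m : WithTop ℤ) := WithTop.add_lt_add_right hmne h1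
    have h4 := ringHom_eq_of_close val v hres (σ j') (σ j) m hm (hJ j' hj') (hJ j hj)
      (fun c => hconst j' j c) hchar y hy (hσy j' j) π hπ h3
    exact (hσinj h4).symm
  have hcard : J.card ≤ e := by
    calc J.card ≤ (Polynomial.nthRootsFinset e
          (1 : IsLocalRing.ResidueField (valRing val))).card :=
          Finset.card_le_card_of_injOn ζ (fun j hj => hζroot j hj) hinj
      _ ≤ Multiset.card (Polynomial.nthRoots e
          (1 : IsLocalRing.ResidueField (valRing val))) := by
          rw [Polynomial.nthRootsFinset_def]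
          exact Multiset.toFinset_card_le _
      _ ≤ e := Polynomial.card_nthRoots e _
  rw [he]
  exact_mod_cast hcard

end Fibre

section LocalDatumForm

open Fermat.Agent.H23

variable {K F : Type} [Field K] [Field F] [Algebra K F]

/-- If an embedding of a local datum induces the place `v`, then `y` vanishes at `v` and the
multiplier is `e₀ / ord_v y`. -/
theorem multiplier_eq_of_induce (y : F) (L : LocalDatum K F y) (v : Place K F) (j : L.I)
    (m : ℕ)
    (hj : ∀ f : F, f ≠ 0 → L.val (L.σ j f) = (((m : ℤ) * v.ord f : ℤ) : WithTop ℤ)) :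
    0 < m ∧ 0 < v.ord y ∧ (m : ℤ) * v.ord y = L.e₀ ∧ (m : ℤ) = (L.e₀ : ℤ) / v.ord y := by
  have hy0 : y ≠ 0 := by
    intro h0
    subst h0
    have h1 := L.val_y j
    rw [map_zero, AddValuation.map_zero] at h1
    exact WithTop.coe_ne_top h1.symm
  have h1 := hj y hy0
  rw [L.val_y j] at h1
  have h2 : (L.e₀ : ℤ) = (m : ℤ) * v.ord y := by exact_mod_cast h1
  have he₀ : (0 : ℤ) < L.e₀ := by exact_mod_cast L.e₀_pos
  have hm0 : (0 : ℤ) ≤ m := Int.natCast_nonneg m
  have hpos : 0 < (m : ℤ) ∧ 0 < v.ord y := by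
    rcases hm0.lt_or_eq with h | h
    · refine ⟨h, ?_⟩
      by_contra hneg
      rw [not_lt] at hneg
      have := mul_nonpos_of_nonneg_of_nonpos hm0 hneg
      omega
    · rw [← h, zero_mul] at h2
      omega
  refine ⟨by exact_mod_cast hpos.1, hpos.2, h2.symm, ?_⟩
  rw [h2, Int.mul_ediv_cancel _ hpos.2.ne']

/-- **GEN-5, Lemma L**: at most `ord_v y` embeddings of a local datum induce the place `v`. -/
theorem card_le_ord_of_induce [IsAlgClosed K] [CharZero K] (y : F) (L : LocalDatum K F y)
    (v : Place K F) (hdeg : v.deg = 1) (hy : 0 < v.ord y) (J : Finset L.I)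
    (hJ : ∀ j ∈ J, ∃ m : ℕ, 0 < m ∧
      ∀ f : F, f ≠ 0 → L.val (L.σ j f) = (((m : ℤ) * v.ord f : ℤ) : WithTop ℤ)) :
    (J.card : ℤ) ≤ v.ord y := by
  have he₀ : (0 : ℤ) < L.e₀ := by exact_mod_cast L.e₀_pos
  rcases J.eq_empty_or_nonempty with hJe | ⟨i₀, hi₀⟩
  · rw [hJe, Finset.card_empty]
    exact_mod_cast hy.le
  obtain ⟨m₀, hm₀, hi₀'⟩ := hJ i₀ hi₀
  refine card_le_ord_of_common_multiplier L.val v (residueConst_of_deg_eq_one v hdeg) L.σ
    L.σ_inj L.val_const L.σ_const y L.σ_y hy ((L.e₀ : ℤ) / v.ord y) ?_ J ?_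
  · rw [← (multiplier_eq_of_induce y L v i₀ m₀ hi₀').2.2.2]
    exact_mod_cast hm₀
  · intro j hj f hf
    obtain ⟨m, -, hm⟩ := hJ j hj
    rw [← (multiplier_eq_of_induce y L v j m hm).2.2.2]
    exact hm f hf

/-- Variant for a nonempty family: the hypothesis `0 < v.ord y` is automatic. -/
theorem card_le_ord_of_induce_of_nonempty [IsAlgClosed K] [CharZero K] (y : F)
    (L : LocalDatum K F y) (v : Place K F) (hdeg : v.deg = 1) (J : Finset L.I)
    (hne : J.Nonempty)
    (hJ : ∀ j ∈ J, ∃ m : ℕ, 0 < m ∧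
      ∀ f : F, f ≠ 0 → L.val (L.σ j f) = (((m : ℤ) * v.ord f : ℤ) : WithTop ℤ)) :
    (J.card : ℤ) ≤ v.ord y := by
  obtain ⟨i₀, hi₀⟩ := hne
  obtain ⟨m₀, -, hi₀'⟩ := hJ i₀ hi₀
  exact card_le_ord_of_induce y L v hdeg (multiplier_eq_of_induce y L v i₀ m₀ hi₀').2.1 J hJ

end LocalDatumForm

end Fermat.Agent.H49
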