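/-
P-GENUS (S24), GEN-5 orbit-side lemmas (helper49).
-/
import Fermat.Agent.H49.LocalFibre

set_option autoImplicit false

noncomputable section

namespace Fermat.Agent.H49

open AlgebraicCurve Fermat.Agent.H23

section General

variable {K F M : Type*} [Field K] [Field F] [Algebra K F] [Field M]

/-- The place induced by an embedding into a valued field is unique. -/
theorem place_eq_of_induce (val : AddValuation M (WithTop ℤ)) (σ : F →+* M)
    (v v' : Place K F) (m m' : ℕ) (hm : 0 < m) (hm' : 0 < m')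
    (h : ∀ f : F, f ≠ 0 → val (σ f) = (((m : ℤ) * v.ord f : ℤ) : WithTop ℤ))
    (h' : ∀ f : F, f ≠ 0 → val (σ f) = (((m' : ℤ) * v'.ord f : ℤ) : WithTop ℤ)) :
    v = v' := by
  apply place_ext_of_ord
  intro f hf
  by_cases hf0 : f = 0
  · simp [hf0]
  have h1 := h f hf0
  rw [h' f hf0] at h1
  have h2 : (m' : ℤ) * v'.ord f = (m : ℤ) * v.ord f := by exact_mod_cast h1
  have hmz : (0 : ℤ) < m := by exact_mod_cast hm
  have hmz' : (0 : ℤ) < m' := by exact_mod_cast hm'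
  have h3 : 0 ≤ (m' : ℤ) * v'.ord f := by
    rw [h2]
    exact mul_nonneg hmz.le hf
  exact nonneg_of_mul_nonneg_right h3 hmz'

/-- Existence of a uniformizer in field-element form. -/
theorem exists_ord_eq_one (v : Place K F) : ∃ π : F, π ≠ 0 ∧ v.ord π = 1 := by
  obtain ⟨ϖ, hϖ⟩ := IsDiscreteValuationRing.exists_irreducible v.toValuationSubring
  refine ⟨(ϖ : F), ?_, v.ord_coe_irreducible hϖ⟩
  simpa [ne_eq, ZeroMemClass.coe_eq_zero] using hϖ.ne_zero

end General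

section LocalDatumForm

variable {K F : Type} [Field K] [Field F] [Algebra K F]

/-- Every embedding of a local datum induces a place over the zeros of `y`. -/
theorem exists_place_of_localDatum (y : F) (L : LocalDatum K F y) (i : L.I) :
    ∃ (v : Place K F) (m : ℕ), 0 < m ∧ 0 < v.ord y ∧
      ∀ f : F, f ≠ 0 → L.val (L.σ i f) = (((m : ℤ) * v.ord f : ℤ) : WithTop ℤ) := by
  have hy0 : y ≠ 0 := by
    intro h0
    subst h0
    have h1 := L.val_y i
    rw [map_zero, AddValuation.map_zero] at h1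
    exact WithTop.coe_ne_top h1.symm
  have hyval : L.val (L.σ i y) ≠ 0 := by
    rw [L.val_y i]
    have : (L.e₀ : ℤ) ≠ 0 := by exact_mod_cast L.e₀_pos.ne'
    exact_mod_cast this
  obtain ⟨v, m, hm, hv⟩ := inducedPlace K F L.M L.val (L.σ i) (L.val_const i) ⟨y, hy0, hyval⟩
  exact ⟨v, m, hm, (multiplier_eq_of_induce y L v i m hv).2.1, hv⟩

/-- `ε` preserves the induced place. -/
theorem induce_perm (y : F) (L : LocalDatum K F y) (v : Place K F) (i : L.I) (m : ℕ)
    (hi : ∀ f : F, f ≠ 0 → L.val (L.σ i f) = (((m : ℤ) * v.ord f : ℤ) : WithTop ℤ)) :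
    ∀ f : F, f ≠ 0 → L.val (L.σ (L.ε i) f) = (((m : ℤ) * v.ord f : ℤ) : WithTop ℤ) :=
  fun f hf => (L.val_ε i f).trans (hi f hf)

theorem induce_perm_pow (y : F) (L : LocalDatum K F y) (v : Place K F) (i : L.I) (m : ℕ)
    (hi : ∀ f : F, f ≠ 0 → L.val (L.σ i f) = (((m : ℤ) * v.ord f : ℤ) : WithTop ℤ)) (n : ℕ) :
    ∀ f : F, f ≠ 0 → L.val (L.σ ((L.ε ^ n) i) f) = (((m : ℤ) * v.ord f : ℤ) : WithTop ℤ) := by
  induction n with
  | zero => simpa using hi
  | succ n ih =>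
    rw [pow_succ', Equiv.Perm.mul_apply]
    exact induce_perm y L v _ m ih

/-- The ramification index divides the length of every cycle through an embedding inducing
the place. -/
theorem ord_dvd_of_pow_fixed (y : F) (L : LocalDatum K F y) (v : Place K F) (i : L.I) (m : ℕ)
    (hi : ∀ f : F, f ≠ 0 → L.val (L.σ i f) = (((m : ℤ) * v.ord f : ℤ) : WithTop ℤ))
    (k : ℕ) (hk : (L.ε ^ k) i = i) : v.ord y ∣ (k : ℤ) := by
  obtain ⟨hm, hy, hmul, -⟩ := multiplier_eq_of_induce y L v i m hi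
  obtain ⟨π, hπ0, hπ⟩ := exists_ord_eq_one v
  obtain ⟨t, ht⟩ := L.val_dvd i k hk π hπ0
  rw [hi π hπ0, hπ, mul_one] at ht
  have ht' : (m : ℤ) = ((L.e₀ / Nat.gcd L.e₀ k : ℕ) : ℤ) * t := by exact_mod_cast ht
  set g := Nat.gcd L.e₀ k with hg
  have hgdvd : g ∣ L.e₀ := Nat.gcd_dvd_left _ _
  have hgk : g ∣ k := Nat.gcd_dvd_right _ _
  have he₀ : (L.e₀ / g) * g = L.e₀ := Nat.div_mul_cancel hgdvd
  have hq0 : (0 : ℤ) < ((L.e₀ / g : ℕ) : ℤ) := by
    have : 0 < L.e₀ / g := Nat.div_pos (Nat.le_of_dvd L.e₀_pos hgdvd)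
      (Nat.pos_of_ne_zero (fun h0 => by
        rw [h0, zero_dvd_iff] at hgdvd
        exact L.e₀_pos.ne' hgdvd))
    exact_mod_cast this
  have h1 : ((L.e₀ / g : ℕ) : ℤ) * (t * v.ord y) = ((L.e₀ / g : ℕ) : ℤ) * (g : ℤ) := by
    have : (((L.e₀ / g : ℕ) : ℤ) * (g : ℤ)) = (L.e₀ : ℤ) := by exact_mod_cast he₀
    rw [this, ← hmul, ht']
    ring
  have h2 : t * v.ord y = (g : ℤ) := mul_left_cancel₀ hq0.ne' h1
  have h3 : v.ord y ∣ (g : ℤ) := ⟨t, by rw [← h2]; ring⟩
  exact h3.trans (by exact_mod_cast hgk)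

end LocalDatumForm

end Fermat.Agent.H49
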