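import Mathlib.RingTheory.MvPowerSeries.Inverse
import Mathlib.RingTheory.MvPowerSeries.Trunc
import Mathlib.RingTheory.MvPowerSeries.Equiv
import Mathlib.RingTheory.AdicCompletion.Completeness
import Mathlib.RingTheory.DiscreteValuationRing.Basic

set_option autoImplicit false

namespace Fermat.Agent.H49

open MvPowerSeries

section Filt

variable {σ : Type*} {R : Type*} [CommRing R]

/-- Weighted filtration: the coefficient at `α` lies in `I ^ (n - deg α)`. -/
def wfilt (I : Ideal R) (n : ℕ) : Ideal (MvPowerSeries σ R) where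
  carrier := {f | ∀ α : σ →₀ ℕ, coeff α f ∈ I ^ (n - α.degree)}
  zero_mem' := by intro α; simp
  add_mem' := by
    intro f g hf hg α
    rw [map_add]
    exact Ideal.add_mem _ (hf α) (hg α)
  smul_mem' := by
    intro c f hf α
    classical
    rw [smul_eq_mul, coeff_mul]
    refine Ideal.sum_mem _ fun p hp => ?_
    have hp' : p.1 + p.2 = α := by simpa using hp
    have hdeg : p.2.degree ≤ α.degree := by
      rw [← hp', map_add]; exact Nat.le_add_left _ _
    exact Ideal.mul_mem_left _ _ (Ideal.pow_le_pow_right (Nat.sub_le_sub_left hdeg n) (hf p.2))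

lemma mem_wfilt {I : Ideal R} {n : ℕ} {f : MvPowerSeries σ R} :
    f ∈ wfilt (σ := σ) I n ↔ ∀ α : σ →₀ ℕ, coeff α f ∈ I ^ (n - α.degree) := Iff.rfl

lemma wfilt_mul_le (I : Ideal R) (a b : ℕ) :
    wfilt (σ := σ) I a * wfilt I b ≤ wfilt I (a + b) := by
  classical
  rw [Ideal.mul_le]
  intro f hf g hg α
  rw [coeff_mul]
  refine Ideal.sum_mem _ fun p hp => ?_
  have hp' : p.1 + p.2 = α := by simpa using hp
  have hdeg : α.degree = p.1.degree + p.2.degree := by rw [← hp', map_add]
  have h1 := hf p.1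
  have h2 := hg p.2
  have h3 : coeff p.1 f * coeff p.2 g ∈ I ^ ((a - p.1.degree) + (b - p.2.degree)) := by
    rw [pow_add]; exact Ideal.mul_mem_mul h1 h2
  refine Ideal.pow_le_pow_right ?_ h3
  omega

lemma wfilt_zero (I : Ideal R) : wfilt (σ := σ) I 0 = ⊤ := by
  rw [Ideal.eq_top_iff_one]
  intro α
  simp

/-- If `K ≤ wfilt I 1` then `K ^ n ≤ wfilt I n`. -/
lemma pow_le_wfilt {I : Ideal R} {K : Ideal (MvPowerSeries σ R)} (hK : K ≤ wfilt I 1) (n : ℕ) :
    K ^ n ≤ wfilt I n := by
  induction n with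
  | zero => rw [wfilt_zero]; exact le_top
  | succ n ih =>
    rw [pow_succ]
    exact (Ideal.mul_mono ih hK).trans (wfilt_mul_le I n 1)

lemma degree_eq_zero_iff' (α : σ →₀ ℕ) : α.degree = 0 ↔ α = 0 := by
  simp [Finsupp.degree_eq_zero_iff]

lemma le_wfilt_one_of_constantCoeff {I : Ideal R} {K : Ideal (MvPowerSeries σ R)}
    (hK : ∀ f ∈ K, constantCoeff f ∈ I) : K ≤ wfilt I 1 := by
  intro f hf α
  by_cases hα : α = 0
  · subst hα
    simpa [coeff_zero_eq_constantCoeff_apply] using hK f hf
  · have : 1 - α.degree = 0 := by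
      have : α.degree ≠ 0 := fun h => hα ((degree_eq_zero_iff' α).1 h)
      omega
    rw [this]
    simp

/-- The ideal generated by the variables. -/
noncomputable abbrev varIdeal (σ : Type*) (R : Type*) [CommRing R] : Ideal (MvPowerSeries σ R) :=
  Ideal.span (Set.range (MvPowerSeries.X : σ → MvPowerSeries σ R))

lemma varIdeal_le_wfilt_bot : varIdeal σ R ≤ wfilt ⊥ 1 := by
  apply le_wfilt_one_of_constantCoeff
  intro f hf
  have hker : varIdeal σ R ≤ RingHom.ker (constantCoeff (σ := σ) (R := R)) := by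
    rw [Ideal.span_le]
    rintro _ ⟨i, rfl⟩
    simp [RingHom.mem_ker]
  simpa [RingHom.mem_ker] using hker hf

lemma coeff_eq_zero_of_mem_varIdeal_pow {n : ℕ} {f : MvPowerSeries σ R}
    (hf : f ∈ varIdeal σ R ^ n) {α : σ →₀ ℕ} (hα : α.degree < n) : coeff α f = 0 := by
  have h := pow_le_wfilt (varIdeal_le_wfilt_bot (σ := σ) (R := R)) n hf α
  have hpos : n - α.degree ≠ 0 := by omega
  rw [Ideal.bot_pow hpos] at h
  simpa using h

end Filt

section Tail

variable {σ : Type*} {R : Type*} [CommRing R]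

lemma coe_mem_varIdeal_pow {n : ℕ} {p : MvPolynomial σ R}
    (hp : p ∈ MvPolynomial.idealOfVars σ R ^ n) :
    (p : MvPowerSeries σ R) ∈ varIdeal σ R ^ n := by
  have hmap : Ideal.map (MvPolynomial.coeToMvPowerSeries.ringHom (σ := σ) (R := R))
      (MvPolynomial.idealOfVars σ R) ≤ varIdeal σ R := by
    rw [MvPolynomial.idealOfVars, Ideal.map_span, Ideal.span_le]
    rintro _ ⟨_, ⟨i, rfl⟩, rfl⟩
    apply Ideal.subset_span
    exact ⟨i, by simp⟩
  have h1 := Ideal.mem_map_of_mem (MvPolynomial.coeToMvPowerSeries.ringHom (σ := σ) (R := R)) hp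
  rw [Ideal.map_pow] at h1
  exact Ideal.pow_right_mono hmap n h1

/-- A power series minus its total-degree truncation lies in the `n`-th power of the ideal of
variables. -/
theorem sub_truncTotal_mem_varIdeal_pow [Finite σ] (n : ℕ) (f : MvPowerSeries σ R) :
    f - ((truncTotal n f : MvPolynomial σ R) : MvPowerSeries σ R) ∈ varIdeal σ R ^ n := by
  classical
  set g : ℕ → MvPowerSeries σ R := fun m => ((truncTotal m f : MvPolynomial σ R) :
    MvPowerSeries σ R) with hg
  have hcauchy : ∀ {m m' : ℕ}, m ≤ m' →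
      g m ≡ g m' [SMOD (varIdeal σ R ^ m • ⊤ : Submodule (MvPowerSeries σ R) (MvPowerSeries σ R))] := by
    intro m m' hmm'
    rw [SModEq.sub_mem, smul_eq_mul, Ideal.mul_top]
    have := truncTotal_sub_truncTotal_mem_pow_idealOfVars (σ := σ) (R := R) (le_refl m) hmm' f
    have h2 := coe_mem_varIdeal_pow this
    have h3 : ((truncTotal m f - truncTotal m' f : MvPolynomial σ R) : MvPowerSeries σ R)
        = g m - g m' := by
      change MvPolynomial.coeToMvPowerSeries.ringHom (truncTotal m f - truncTotal m' f) = _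
      rw [map_sub]; rfl
    rw [h3] at h2
    exact h2
  obtain ⟨L, hL⟩ := IsPrecomplete.prec (inferInstance : IsPrecomplete (varIdeal σ R)
    (MvPowerSeries σ R)) hcauchy
  have hLf : L = f := by
    ext α
    have h := hL (α.degree + 1)
    rw [SModEq.sub_mem, smul_eq_mul, Ideal.mul_top] at h
    have h0 := coeff_eq_zero_of_mem_varIdeal_pow h (Nat.lt_succ_self _)
    rw [map_sub, sub_eq_zero] at h0
    rw [← h0]
    simp only [hg, MvPolynomial.coeff_coe]
    exact coeff_truncTotal _ (Nat.lt_succ_self _)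
  have h := hL n
  rw [SModEq.sub_mem, smul_eq_mul, Ideal.mul_top, hLf] at h
  have := (varIdeal σ R ^ n).neg_mem h
  simpa [hg] using this

end Tail

section Upper

variable {σ : Type*} {R : Type*} [CommRing R]

lemma X_prod_mem_pow {K : Ideal (MvPowerSeries σ R)} (hX : ∀ i, (X i : MvPowerSeries σ R) ∈ K)
    (α : σ →₀ ℕ) : (α.prod fun s e => (X s : MvPowerSeries σ R) ^ e) ∈ K ^ α.degree := by
  classical
  have h1 : (α.prod fun s e => (X s : MvPowerSeries σ R) ^ e) ∈ ∏ s ∈ α.support, K ^ (α s) := by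
    rw [Finsupp.prod]
    exact Ideal.prod_mem_prod fun s _ => Ideal.pow_mem_pow (hX s) _
  rw [Finset.prod_pow_eq_pow_sum] at h1
  rw [Finsupp.degree_apply]
  exact h1

lemma C_mem_pow {I : Ideal R} {K : Ideal (MvPowerSeries σ R)}
    (hC : ∀ a ∈ I, (C a : MvPowerSeries σ R) ∈ K) {k : ℕ} {a : R} (ha : a ∈ I ^ k) :
    (C a : MvPowerSeries σ R) ∈ K ^ k := by
  have hmap : Ideal.map (C (σ := σ) (R := R)) I ≤ K := by
    rw [Ideal.map_le_iff_le_comap]
    intro a ha
    exact hC a ha
  have h1 := Ideal.mem_map_of_mem (C (σ := σ) (R := R)) ha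
  rw [Ideal.map_pow] at h1
  exact Ideal.pow_right_mono hmap k h1

theorem wfilt_le_pow [Finite σ] {I : Ideal R} {K : Ideal (MvPowerSeries σ R)}
    (hC : ∀ a ∈ I, (C a : MvPowerSeries σ R) ∈ K)
    (hX : ∀ i, (X i : MvPowerSeries σ R) ∈ K) (n : ℕ) :
    wfilt I n ≤ K ^ n := by
  classical
  intro f hf
  have hvar : varIdeal σ R ≤ K := by
    rw [Ideal.span_le]
    rintro _ ⟨i, rfl⟩
    exact hX i
  have htail : f - ((truncTotal n f : MvPolynomial σ R) : MvPowerSeries σ R) ∈ K ^ n :=
    Ideal.pow_right_mono hvar n (sub_truncTotal_mem_varIdeal_pow n f)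
  have hpoly : ((truncTotal n f : MvPolynomial σ R) : MvPowerSeries σ R) ∈ K ^ n := by
    have hsum := MvPolynomial.as_sum (truncTotal n f)
    have hcoe : ((truncTotal n f : MvPolynomial σ R) : MvPowerSeries σ R) =
        ∑ v ∈ (truncTotal n f).support,
          MvPowerSeries.monomial v (MvPolynomial.coeff v (truncTotal n f)) := by
      conv_lhs => rw [hsum]
      change MvPolynomial.coeToMvPowerSeries.ringHom _ = _
      rw [map_sum]
      refine Finset.sum_congr rfl fun v _ => ?_
      simp
    rw [hcoe]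
    refine Ideal.sum_mem _ fun v hv => ?_
    have hne : MvPolynomial.coeff v (truncTotal n f) ≠ 0 := by
      simpa [MvPolynomial.mem_support_iff] using hv
    have hdeg : v.degree < n := by
      by_contra hcon
      exact hne (coeff_truncTotal_eq_zero _ (not_lt.mp hcon))
    rw [coeff_truncTotal _ hdeg, MvPowerSeries.monomial_eq']
    have h1 : (C (coeff v f) : MvPowerSeries σ R) ∈ K ^ (n - v.degree) := C_mem_pow hC (hf v)
    have h2 := X_prod_mem_pow hX v
    have h3 := Ideal.mul_mem_mul h1 h2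
    rw [← pow_add] at h3
    have : n - v.degree + v.degree = n := by omega
    rwa [this] at h3
  have := Ideal.add_mem _ hpoly htail
  simpa using this

end Upper

section Main

open IsLocalRing

variable {σ : Type*} {R : Type*} [CommRing R] [IsLocalRing R]

lemma mem_maximalIdeal_iff_constantCoeff (f : MvPowerSeries σ R) :
    f ∈ maximalIdeal (MvPowerSeries σ R) ↔ constantCoeff f ∈ maximalIdeal R := by
  rw [mem_maximalIdeal, mem_maximalIdeal, mem_nonunits_iff, mem_nonunits_iff,
    MvPowerSeries.isUnit_iff_constantCoeff]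

lemma maximalIdeal_pow_le_wfilt (n : ℕ) :
    maximalIdeal (MvPowerSeries σ R) ^ n ≤ wfilt (maximalIdeal R) n :=
  pow_le_wfilt (le_wfilt_one_of_constantCoeff fun f hf =>
    (mem_maximalIdeal_iff_constantCoeff f).1 hf) n

lemma wfilt_le_maximalIdeal_pow [Finite σ] (n : ℕ) :
    wfilt (maximalIdeal R) n ≤ maximalIdeal (MvPowerSeries σ R) ^ n := by
  classical
  refine wfilt_le_pow (fun a ha => ?_) (fun i => ?_) n
  · rw [mem_maximalIdeal_iff_constantCoeff]
    simpa using ha
  · rw [mem_maximalIdeal_iff_constantCoeff]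
    simp

/-- The maximal-ideal-adic filtration of `R⟦X₁,…,X_N⟧` is the weighted filtration. -/
theorem maximalIdeal_pow_eq_wfilt [Finite σ] (n : ℕ) :
    maximalIdeal (MvPowerSeries σ R) ^ n = wfilt (maximalIdeal R) n :=
  le_antisymm (maximalIdeal_pow_le_wfilt n) (wfilt_le_maximalIdeal_pow n)

/-- A power series ring in finitely many variables over a local ring which is complete for its
maximal ideal is complete for its own maximal ideal. -/
theorem isAdicComplete_maximalIdeal_mvPowerSeries [Finite σ]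
    [IsAdicComplete (maximalIdeal R) R] :
    IsAdicComplete (maximalIdeal (MvPowerSeries σ R)) (MvPowerSeries σ R) := by
  classical
  have hH : IsHausdorff (maximalIdeal (MvPowerSeries σ R)) (MvPowerSeries σ R) := by
    refine ⟨fun x hx => ?_⟩
    ext α
    rw [map_zero]
    refine IsHausdorff.haus (inferInstance : IsHausdorff (maximalIdeal R) R) _ fun k => ?_
    have h1 := hx (k + α.degree)
    rw [SModEq.sub_mem, sub_zero, smul_eq_mul, Ideal.mul_top] at h1
    have h2 := maximalIdeal_pow_le_wfilt (k + α.degree) h1 α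
    rw [Nat.add_sub_cancel] at h2
    rw [SModEq.sub_mem, sub_zero, smul_eq_mul, Ideal.mul_top]
    exact h2
  have hP : IsPrecomplete (maximalIdeal (MvPowerSeries σ R)) (MvPowerSeries σ R) := by
    refine ⟨fun f hf => ?_⟩
    have hc : ∀ α : σ →₀ ℕ, ∃ L : R, ∀ k : ℕ,
        coeff α (f (k + α.degree)) ≡ L [SMOD (maximalIdeal R ^ k • ⊤ : Submodule R R)] := by
      intro α
      refine IsPrecomplete.prec (inferInstance : IsPrecomplete (maximalIdeal R) R) ?_
      intro k l hkl
      have h1 := hf (show k + α.degree ≤ l + α.degree by omega)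
      rw [SModEq.sub_mem, smul_eq_mul, Ideal.mul_top] at h1
      have h2 := maximalIdeal_pow_le_wfilt (k + α.degree) h1 α
      rw [Nat.add_sub_cancel, map_sub] at h2
      rw [SModEq.sub_mem, smul_eq_mul, Ideal.mul_top]
      exact h2
    choose L hL using hc
    obtain ⟨Lser, hLser⟩ : ∃ Lser : MvPowerSeries σ R, ∀ α, coeff α Lser = L α :=
      ⟨L, fun α => rfl⟩
    refine ⟨Lser, fun n => ?_⟩
    rw [SModEq.sub_mem, smul_eq_mul, Ideal.mul_top]
    apply wfilt_le_maximalIdeal_pow n
    intro α
    rw [map_sub, hLser]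
    by_cases hα : α.degree ≤ n
    · have h1 := hL α (n - α.degree)
      rw [SModEq.sub_mem, smul_eq_mul, Ideal.mul_top, Nat.sub_add_cancel hα] at h1
      exact h1
    · have : n - α.degree = 0 := by omega
      rw [this]
      simp
  exact { toIsHausdorff := hH, toIsPrecomplete := hP }

end Main

/-- DEF-A (P-DEFRING): `O⟦X₁,…,X_N⟧` over a complete discrete valuation ring is complete for its
maximal ideal. -/
theorem mvps_isAdicComplete (O : Type) [CommRing O] [IsDomain O] [IsDiscreteValuationRing O]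
    [IsAdicComplete (IsLocalRing.maximalIdeal O) O] (N : Nat) :
    IsAdicComplete (IsLocalRing.maximalIdeal (MvPowerSeries (Fin N) O))
      (MvPowerSeries (Fin N) O) :=
  isAdicComplete_maximalIdeal_mvPowerSeries

/-- DEF-B (P-DEFRING), in the requested shape. -/
theorem sub_truncTotal_mem {R : Type} [CommRing R] (N n : Nat) (f : MvPowerSeries (Fin N) R) :
    f - ((MvPowerSeries.truncTotal n f : MvPolynomial (Fin N) R) : MvPowerSeries (Fin N) R) ∈
      (Ideal.span (Set.range (MvPowerSeries.X : Fin N → MvPowerSeries (Fin N) R))) ^ n :=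
  sub_truncTotal_mem_varIdeal_pow n f

end Fermat.Agent.H49
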